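/-
helper93 (P-CFT / TATE-BR1, row 480): `Ĥ¹(S, M) = 0` iff every `1`-cocycle on `S` is a
coboundary (`Fermat.Agent.H24.BridgeH1Statement`).
-/
import Fermat.Agent.H24.Tate.Interfaces
import Mathlib.RepresentationTheory.Homological.GroupCohomology.LowDegree

set_option autoImplicit false

noncomputable section

open CategoryTheory

namespace Fermat.Agent.H93.Tate

open groupCohomology Fermat.Agent.H24

/-- `H¹(G, A) = 0` iff every `1`-cocycle is a coboundary. -/
theorem isZero_groupCohomology_one_iff {G : Type} [Group G] (A : Rep ℤ G) :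
    Limits.IsZero (groupCohomology A 1) ↔
      ∀ f : cocycles₁ A, (f : G → A) ∈ coboundaries₁ A := by
  constructor
  · intro h f
    rw [← H1π_eq_zero_iff]
    have := ModuleCat.subsingleton_of_isZero h
    exact Subsingleton.elim _ _
  · intro h
    rw [ModuleCat.isZero_iff_subsingleton]
    refine ⟨fun x y => ?_⟩
    have key : ∀ z : H1 A, z = 0 := by
      intro z
      induction z using H1_induction_on with
      | h f => exact (H1π_eq_zero_iff f).2 (h f)
    rw [key x, key y]

/-- Tate cohomology in degree one is group cohomology in degree one. -/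
theorem isZero_tate_one_iff {G : Type} [Group G] [Fintype G] (A : Rep ℤ G) :
    Limits.IsZero (tateCohomology A 1) ↔ Limits.IsZero (groupCohomology A 1) :=
  Iso.isZero_iff ((TateCohomology.isoGroupCohomology (R := ℤ) (G := G) 1).app A)

/-- **TATE-BR1** `Ĥ¹(S, M) = 0` iff every `1`-cocycle on `S` is a coboundary. -/
theorem bridgeH1 : BridgeH1Statement := by
  intro G _ _ M S _
  rw [isZero_tate_one_iff, isZero_groupCohomology_one_iff]
  constructor
  · intro h f hf
    have hf' : (fun s : S => f (s : G)) ∈ cocycles₁ (Rep.res S.subtype M) := by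
      rw [mem_cocycles₁_iff]
      intro s t
      exact hf s s.2 t t.2
    obtain ⟨a, ha⟩ := h ⟨_, hf'⟩
    refine ⟨a, fun s hs => ?_⟩
    have h1 := congrFun ha ⟨s, hs⟩
    exact h1.symm
  · intro h f
    classical
    have hf := (mem_cocycles₁_iff (A := Rep.res S.subtype M) f).1 f.2
    obtain ⟨a, ha⟩ := h (fun g : G => if hg : g ∈ S then f ⟨g, hg⟩ else 0) (by
      intro s hs t ht
      have hst : s * t ∈ S := S.mul_mem hs ht
      simp only [hs, ht, hst, dif_pos]
      exact hf ⟨s, hs⟩ ⟨t, ht⟩)
    refine ⟨a, funext fun s => ?_⟩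
    have h1 := ha s s.2
    simp only [s.2, dif_pos] at h1
    exact h1.symm

end Fermat.Agent.H93.Tate
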